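import Mathlib
import Fermat.Prelude.Def_ModularCurve_GenusNumerics
import Mathlib.NumberTheory.ModularForms.CongruenceSubgroups
import Mathlib.NumberTheory.ModularForms.Basic
import Fermat.Agent.MUL.S20.Cosets.Action
import Fermat.Agent.MUL.S20.Cosets.Count

section MergeWrap_S20_Cosets_Fixed -- from S20/Cosets/Fixed.lean

set_option autoImplicit false

namespace Fermat.Agent.S20

open scoped MatrixGroups
open CongruenceSubgroup Matrix

variable {N : ℕ}

/-- Transport of fixed points along the equivariant bijection. -/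
noncomputable def fixedByEquivP1 (N : ℕ) [NeZero N] (g : SL(2, ℤ)) :
    MulAction.fixedBy (SL(2, ℤ) ⧸ Gamma0 N) g ≃ MulAction.fixedBy (P1 N) g :=
  (cosetEquivP1 N).subtypeEquiv (fun x => by
    rw [MulAction.mem_fixedBy, MulAction.mem_fixedBy, ← cosetEquivP1_smul,
      (cosetEquivP1 N).apply_eq_iff_eq])

/-- The affine point `(x : 1)`. -/
def P1.affine (x : ZMod N) : P1 N := P1.mk ⟨(x, 1), isCoprime_one_right⟩

theorem P1.affine_injective : Function.Injective (P1.affine (N := N)) := by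
  intro x y h
  unfold P1.affine at h
  rw [P1.mk_eq_mk_iff] at h
  simpa using h

theorem S_entries : ((ModularGroup.S 0 0 : ℤ) = 0) ∧ ((ModularGroup.S 0 1 : ℤ) = -1) ∧
    ((ModularGroup.S 1 0 : ℤ) = 1) ∧ ((ModularGroup.S 1 1 : ℤ) = 0) := by
  rw [ModularGroup.coe_S]
  simp

theorem ST_entries : (((ModularGroup.S * ModularGroup.T : SL(2, ℤ)) 0 0 : ℤ) = 0) ∧
    (((ModularGroup.S * ModularGroup.T : SL(2, ℤ)) 0 1 : ℤ) = -1) ∧
    (((ModularGroup.S * ModularGroup.T : SL(2, ℤ)) 1 0 : ℤ) = 1) ∧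
    (((ModularGroup.S * ModularGroup.T : SL(2, ℤ)) 1 1 : ℤ) = 1) := by
  rw [Matrix.SpecialLinearGroup.coe_mul, ModularGroup.coe_S, ModularGroup.coe_T]
  simp [Matrix.mul_apply, Fin.sum_univ_two]

theorem S_smul_mk_eq_iff (v : Unimod N) :
    ModularGroup.S • P1.mk v = P1.mk v ↔ v.1.1 ^ 2 + v.1.2 ^ 2 = 0 := by
  rw [P1.smul_mk, P1.mk_eq_mk_iff]
  obtain ⟨h00, h01, h10, h11⟩ := S_entries
  simp only [SL_smul_fst, SL_smul_snd, h00, h01, h10, h11]
  push_cast
  constructor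
  · intro h
    linear_combination -h
  · intro h
    linear_combination -h

theorem ST_smul_mk_eq_iff (v : Unimod N) :
    (ModularGroup.S * ModularGroup.T) • P1.mk v = P1.mk v ↔
      v.1.1 ^ 2 + v.1.1 * v.1.2 + v.1.2 ^ 2 = 0 := by
  rw [P1.smul_mk, P1.mk_eq_mk_iff]
  obtain ⟨h00, h01, h10, h11⟩ := ST_entries
  simp only [SL_smul_fst, SL_smul_snd, h00, h01, h10, h11]
  push_cast
  constructor
  · intro h
    linear_combination -h
  · intro h
    linear_combination -h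

/-- Fixed points of `S` on `P¹(ℤ/N)` are the `(x : 1)` with `x² + 1 = 0`. -/
noncomputable def fixedBySEquiv (N : ℕ) :
    {x : ZMod N // x ^ 2 + 1 = 0} ≃ MulAction.fixedBy (P1 N) ModularGroup.S :=
  Equiv.ofBijective
    (fun x => ⟨P1.affine x.1, by
      rw [MulAction.mem_fixedBy]
      unfold P1.affine
      rw [S_smul_mk_eq_iff]
      simpa using x.2⟩)
    (by
      constructor
      · intro x y h
        exact Subtype.ext (P1.affine_injective (congrArg Subtype.val h))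
      · rintro ⟨p, hp⟩
        obtain ⟨v, rfl⟩ := P1.mk_surjective p
        rw [MulAction.mem_fixedBy, S_smul_mk_eq_iff] at hp
        obtain ⟨x, y, hxy⟩ := v.2
        set a := v.1.1 with ha
        set c := v.1.2 with hc
        set ci := -x ^ 2 * c + 2 * x * y * a + y ^ 2 * c with hci
        have hcci : c * ci = 1 := by
          rw [hci]
          linear_combination (x * a + y * c + 1) * hxy - x ^ 2 * hp
        refine ⟨⟨a * ci, ?_⟩, ?_⟩
        · linear_combination ci ^ 2 * hp - (c * ci + 1) * hcci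
        · apply Subtype.ext
          show P1.affine (a * ci) = P1.mk v
          unfold P1.affine
          rw [P1.mk_eq_mk_iff]
          show a * ci * c = 1 * a
          linear_combination a * hcci)

/-- Fixed points of `S * T` on `P¹(ℤ/N)` are the `(x : 1)` with `x² + x + 1 = 0`. -/
noncomputable def fixedBySTEquiv (N : ℕ) :
    {x : ZMod N // x ^ 2 + x + 1 = 0} ≃
      MulAction.fixedBy (P1 N) (ModularGroup.S * ModularGroup.T) :=
  Equiv.ofBijective
    (fun x => ⟨P1.affine x.1, by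
      rw [MulAction.mem_fixedBy]
      unfold P1.affine
      rw [ST_smul_mk_eq_iff]
      simpa using x.2⟩)
    (by
      constructor
      · intro x y h
        exact Subtype.ext (P1.affine_injective (congrArg Subtype.val h))
      · rintro ⟨p, hp⟩
        obtain ⟨v, rfl⟩ := P1.mk_surjective p
        rw [MulAction.mem_fixedBy, ST_smul_mk_eq_iff] at hp
        obtain ⟨x, y, hxy⟩ := v.2
        set a := v.1.1 with ha
        set c := v.1.2 with hc
        set ci := -x ^ 2 * a - x ^ 2 * c + 2 * x * y * a + y ^ 2 * c with hci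
        have hcci : c * ci = 1 := by
          rw [hci]
          linear_combination (x * a + y * c + 1) * hxy - x ^ 2 * hp
        refine ⟨⟨a * ci, ?_⟩, ?_⟩
        · linear_combination ci ^ 2 * hp - (a * ci + c * ci + 1) * hcci
        · apply Subtype.ext
          show P1.affine (a * ci) = P1.mk v
          unfold P1.affine
          rw [P1.mk_eq_mk_iff]
          show a * ci * c = 1 * a
          linear_combination a * hcci)

theorem card_fixedBy_S_aux (N : ℕ) [NeZero N] :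
    Nat.card (MulAction.fixedBy (SL(2, ℤ) ⧸ Gamma0 N) ModularGroup.S) =
      Nat.card {x : ZMod N // x ^ 2 + 1 = 0} :=
  Nat.card_congr ((fixedByEquivP1 N _).trans (fixedBySEquiv N).symm)

theorem card_fixedBy_ST_aux (N : ℕ) [NeZero N] :
    Nat.card (MulAction.fixedBy (SL(2, ℤ) ⧸ Gamma0 N) (ModularGroup.S * ModularGroup.T)) =
      Nat.card {x : ZMod N // x ^ 2 + x + 1 = 0} :=
  Nat.card_congr ((fixedByEquivP1 N _).trans (fixedBySTEquiv N).symm)

end Fermat.Agent.S20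
end MergeWrap_S20_Cosets_Fixed

section MergeWrap_S20_Cosets_CuspsAux -- from S20/Cosets/CuspsAux.lean

set_option autoImplicit false

namespace Fermat.Agent.S20

variable {N : ℕ}

/-- The kernel of `ℤ/N → ℤ/m` is generated by `m`. -/
theorem exists_eq_mul_of_castHom_eq_zero [NeZero N] {m : ℕ} (hm : m ∣ N) (x : ZMod N)
    (h : ZMod.castHom hm (ZMod m) x = 0) : ∃ y : ZMod N, x = (m : ZMod N) * y := by
  have hx : ((x.val : ℕ) : ZMod N) = x := ZMod.natCast_zmod_val x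
  rw [← hx, map_natCast, ZMod.natCast_eq_zero_iff] at h
  obtain ⟨t, ht⟩ := h
  refine ⟨(t : ZMod N), ?_⟩
  rw [← hx, ht]
  push_cast
  rfl

theorem castHom_natCast_self_mul {m : ℕ} (hm : m ∣ N) (y : ZMod N) :
    ZMod.castHom hm (ZMod m) ((m : ZMod N) * y) = 0 := by
  rw [map_mul, map_natCast, ZMod.natCast_self, zero_mul]

theorem natCast_mul_natCast_div_eq_zero {d : ℕ} (hd : d ∣ N) :
    ((d : ℕ) : ZMod N) * ((N / d : ℕ) : ZMod N) = 0 := by
  rw [← Nat.cast_mul, Nat.mul_div_cancel' hd, ZMod.natCast_self]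

/-- `castHom` towers compose. -/
theorem castHom_castHom {m n : ℕ} (hmn : m ∣ n) (hn : n ∣ N) (x : ZMod N) [NeZero N] :
    ZMod.castHom hmn (ZMod m) (ZMod.castHom hn (ZMod n) x) =
      ZMod.castHom (hmn.trans hn) (ZMod m) x := by
  have hx : ((x.val : ℕ) : ZMod N) = x := ZMod.natCast_zmod_val x
  rw [← hx, map_natCast, map_natCast, map_natCast]

/-- Every `c ∈ ℤ/N` is a unit multiple of `gcd(c, N)`. -/
theorem exists_unit_mul_eq_gcd [NeZero N] (c : ZMod N) :
    ∃ w : (ZMod N)ˣ, (w : ZMod N) * c = ((Nat.gcd c.val N : ℕ) : ZMod N) := by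
  set d := Nat.gcd c.val N with hd
  have hdpos : 0 < d := Nat.gcd_pos_of_pos_right _ (Nat.pos_of_ne_zero (NeZero.ne N))
  have hdN : d ∣ N := Nat.gcd_dvd_right _ _
  have hdc : d ∣ c.val := Nat.gcd_dvd_left _ _
  have hN₁ : N / d ∣ N := Nat.div_dvd_of_dvd hdN
  have hcop : (c.val / d).Coprime (N / d) := Nat.coprime_div_gcd_div_gcd hdpos
  obtain ⟨w, hw⟩ := ZMod.unitsMap_surjective hN₁ (ZMod.unitOfCoprime (c.val / d) hcop)⁻¹
  refine ⟨w, ?_⟩
  have hc : c = ((d : ℕ) : ZMod N) * ((c.val / d : ℕ) : ZMod N) := by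
    rw [← Nat.cast_mul, Nat.mul_div_cancel' hdc, ZMod.natCast_zmod_val]
  have hz : ZMod.castHom hN₁ (ZMod (N / d)) ((w : ZMod N) * ((c.val / d : ℕ) : ZMod N) - 1) = 0 := by
    rw [map_sub, map_mul, map_natCast, map_one]
    have h1 : ZMod.castHom hN₁ (ZMod (N / d)) (w : ZMod N) =
        ((ZMod.unitsMap hN₁ w : (ZMod (N / d))ˣ) : ZMod (N / d)) := by
      rw [ZMod.unitsMap_val, ZMod.castHom_apply]
    rw [h1, hw, ← ZMod.coe_unitOfCoprime (c.val / d) hcop, Units.inv_mul, sub_self]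
  obtain ⟨y, hy⟩ := exists_eq_mul_of_castHom_eq_zero hN₁ _ hz
  have key : (w : ZMod N) * c - ((d : ℕ) : ZMod N) =
      ((d : ℕ) : ZMod N) * ((w : ZMod N) * ((c.val / d : ℕ) : ZMod N) - 1) := by
    conv_lhs => rw [hc]
    ring
  rw [← sub_eq_zero, key, hy, ← mul_assoc, natCast_mul_natCast_div_eq_zero hdN, zero_mul]

/-- If `w d = d` in `ℤ/N` then `w ≡ 1 mod N/d`. -/
theorem castHom_eq_one_of_mul_eq [NeZero N] {d : ℕ} (hd : d ∣ N) (w : ZMod N)
    (h : w * (d : ZMod N) = d) :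
    ZMod.castHom (Nat.div_dvd_of_dvd hd) (ZMod (N / d)) w = 1 := by
  have hdpos : 0 < d := Nat.pos_of_dvd_of_pos hd (Nat.pos_of_ne_zero (NeZero.ne N))
  have hz : (w - 1) * (d : ZMod N) = 0 := by rw [sub_mul, h, one_mul, sub_self]
  have hx : (((w - 1).val : ℕ) : ZMod N) = w - 1 := ZMod.natCast_zmod_val _
  rw [← hx, ← Nat.cast_mul, ZMod.natCast_eq_zero_iff] at hz
  have h2 : N / d ∣ (w - 1).val := by
    apply Nat.dvd_of_mul_dvd_mul_right hdpos
    rwa [Nat.div_mul_cancel hd]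
  have h3 : ZMod.castHom (Nat.div_dvd_of_dvd hd) (ZMod (N / d)) (w - 1) = 0 := by
    rw [← hx, map_natCast, ZMod.natCast_eq_zero_iff]
    exact h2
  rw [map_sub, map_one, sub_eq_zero] at h3
  exact h3

/-- Two divisors of `N` that are unit multiples of each other in `ℤ/N` are equal. -/
theorem eq_of_natCast_eq_unit_mul {d d' : ℕ} (hd : d ∣ N) (hd' : d' ∣ N) (w : (ZMod N)ˣ)
    (h : (d' : ZMod N) = (w : ZMod N) * d) : d' = d := by
  apply Nat.dvd_antisymm
  · -- reduce mod d'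
    have h1 := congrArg (ZMod.castHom hd' (ZMod d')) h
    rw [map_natCast, ZMod.natCast_self, map_mul, map_natCast] at h1
    have hu : IsUnit (ZMod.castHom hd' (ZMod d') (w : ZMod N)) := w.isUnit.map _
    have h2 : ((d : ℕ) : ZMod d') = 0 := by
      have := hu.mul_right_eq_zero.mp h1.symm
      exact this
    exact (ZMod.natCast_eq_zero_iff _ _).mp h2
  · have h1 := congrArg (ZMod.castHom hd (ZMod d)) h
    rw [map_natCast, map_mul, map_natCast, ZMod.natCast_self, mul_zero] at h1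
    exact (ZMod.natCast_eq_zero_iff _ _).mp h1

/-- Key gluing step: if `a₁, a₂` are units mod `d` and agree mod `gcd(d, N/d)`, there is a unit
`w ≡ 1 mod N/d` of `ℤ/N` with `w a₁ ≡ a₂ mod d`. -/
theorem exists_unit_fix [NeZero N] {d : ℕ} (hd : d ∣ N) (a₁ a₂ : ZMod N)
    (h₁ : IsUnit (ZMod.castHom hd (ZMod d) a₁)) (h₂ : IsUnit (ZMod.castHom hd (ZMod d) a₂))
    (hg : ZMod.castHom ((Nat.gcd_dvd_left d (N / d)).trans hd) (ZMod (Nat.gcd d (N / d))) a₁ =
      ZMod.castHom ((Nat.gcd_dvd_left d (N / d)).trans hd) (ZMod (Nat.gcd d (N / d))) a₂) :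
    ∃ (w : (ZMod N)ˣ) (t : ZMod N),
      (w : ZMod N) * (d : ZMod N) = d ∧ (w : ZMod N) * a₁ = a₂ + (d : ZMod N) * t := by
  have hdpos : 0 < d := Nat.pos_of_dvd_of_pos hd (Nat.pos_of_ne_zero (NeZero.ne N))
  have : NeZero d := ⟨hdpos.ne'⟩
  have hN₁ : N / d ∣ N := Nat.div_dvd_of_dvd hd
  set g := Nat.gcd d (N / d) with hgdef
  have hgd : g ∣ d := Nat.gcd_dvd_left _ _
  obtain ⟨u₁, hu₁⟩ := h₁
  obtain ⟨u₂, hu₂⟩ := h₂
  -- the target residue mod `d`
  set x : ZMod d := ((u₂ * u₁⁻¹ : (ZMod d)ˣ) : ZMod d) with hx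
  have hxval : ((x.val : ℕ) : ZMod d) = x := ZMod.natCast_zmod_val x
  have hcompat : x.val ≡ 1 [MOD Nat.gcd d (N / d)] := by
    rw [← ZMod.natCast_eq_natCast_iff, Nat.cast_one]
    have h3 : ((x.val : ℕ) : ZMod g) = ZMod.castHom hgd (ZMod g) x := by
      rw [← hxval, map_natCast, hxval]
    rw [h3, hx]
    have h4 : ZMod.castHom hgd (ZMod g) (u₁ : ZMod d) = ZMod.castHom hgd (ZMod g) (u₂ : ZMod d) := by
      rw [hu₁, hu₂, castHom_castHom hgd hd, castHom_castHom hgd hd]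
      exact hg
    have h5 : ZMod.castHom hgd (ZMod g) ((u₁⁻¹ : (ZMod d)ˣ) : ZMod d) *
        ZMod.castHom hgd (ZMod g) (u₁ : ZMod d) = 1 := by
      rw [← map_mul, Units.inv_mul, map_one]
    rw [Units.val_mul, map_mul, ← h4, mul_comm]
    exact h5
  obtain ⟨k, hk₁, hk₂⟩ := Nat.chineseRemainder' hcompat
  have hkd : ((k : ℕ) : ZMod d) = x := by
    rw [← hxval]
    exact (ZMod.natCast_eq_natCast_iff _ _ _).mpr hk₁
  have hkN₁ : ((k : ℕ) : ZMod (N / d)) = 1 := by
    rw [← Nat.cast_one]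
    exact (ZMod.natCast_eq_natCast_iff _ _ _).mpr hk₂
  have hcop : k.Coprime N := by
    have h1 : k.Coprime d := by
      rw [← ZMod.isUnit_iff_coprime, hkd, hx]
      exact Units.isUnit _
    have h2 : k.Coprime (N / d) := by
      rw [← ZMod.isUnit_iff_coprime, hkN₁]
      exact isUnit_one
    have := Nat.Coprime.mul_right h1 h2
    rwa [Nat.mul_div_cancel' hd] at this
  refine ⟨ZMod.unitOfCoprime k hcop, ?_⟩
  rw [ZMod.coe_unitOfCoprime]
  -- `k ≡ 1 mod N/d` gives `k d = d`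
  have hfix : ((k : ℕ) : ZMod N) * (d : ZMod N) = d := by
    have hz : ZMod.castHom hN₁ (ZMod (N / d)) (((k : ℕ) : ZMod N) - 1) = 0 := by
      rw [map_sub, map_natCast, map_one, hkN₁, sub_self]
    obtain ⟨y, hy⟩ := exists_eq_mul_of_castHom_eq_zero hN₁ _ hz
    have : ((k : ℕ) : ZMod N) * (d : ZMod N) - d = (d : ZMod N) * (((k : ℕ) : ZMod N) - 1) := by ring
    rw [← sub_eq_zero, this, hy, ← mul_assoc, natCast_mul_natCast_div_eq_zero hd, zero_mul]
  -- `k a₁ ≡ a₂ mod d`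
  have hz : ZMod.castHom hd (ZMod d) (((k : ℕ) : ZMod N) * a₁ - a₂) = 0 := by
    rw [map_sub, map_mul, map_natCast, hkd, hx, ← hu₁, ← hu₂, Units.val_mul, mul_assoc,
      Units.inv_mul, mul_one, sub_self]
  obtain ⟨t, ht⟩ := exists_eq_mul_of_castHom_eq_zero hd _ hz
  exact ⟨t, hfix, by rw [← ht]; ring⟩

end Fermat.Agent.S20
end MergeWrap_S20_Cosets_CuspsAux

section MergeWrap_S20_Cosets_Cusps -- from S20/Cosets/Cusps.lean

set_option autoImplicit false

namespace Fermat.Agent.S20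

open scoped MatrixGroups
open CongruenceSubgroup Matrix

variable {N : ℕ}

theorem T_zpow_entries (k : ℤ) :
    ((ModularGroup.T ^ k : SL(2, ℤ)) 0 0 : ℤ) = 1 ∧
      ((ModularGroup.T ^ k : SL(2, ℤ)) 0 1 : ℤ) = k ∧
      ((ModularGroup.T ^ k : SL(2, ℤ)) 1 0 : ℤ) = 0 ∧
      ((ModularGroup.T ^ k : SL(2, ℤ)) 1 1 : ℤ) = 1 := by
  have h := ModularGroup.coe_T_zpow k
  refine ⟨?_, ?_, ?_, ?_⟩
  · have := congrFun (congrFun h 0) 0
    simpa using this
  · have := congrFun (congrFun h 0) 1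
    simpa using this
  · have := congrFun (congrFun h 1) 0
    simpa using this
  · have := congrFun (congrFun h 1) 1
    simpa using this

theorem T_zpow_smul_fst (k : ℤ) (v : Unimod N) :
    ((ModularGroup.T ^ k : SL(2, ℤ)) • v).1.1 = v.1.1 + (k : ZMod N) * v.1.2 := by
  obtain ⟨h00, h01, -, -⟩ := T_zpow_entries k
  rw [SL_smul_fst, h00, h01, Int.cast_one, one_mul]

theorem T_zpow_smul_snd (k : ℤ) (v : Unimod N) :
    ((ModularGroup.T ^ k : SL(2, ℤ)) • v).1.2 = v.1.2 := by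
  obtain ⟨-, -, h10, h11⟩ := T_zpow_entries k
  rw [SL_smul_snd, h10, h11, Int.cast_one, one_mul, Int.cast_zero, zero_mul, zero_add]

theorem P1.mk_eq_mk_iff_exists (v w : Unimod N) :
    P1.mk v = P1.mk w ↔ ∃ u : (ZMod N)ˣ, u • v = w := by
  rw [P1.mk_eq_mk_iff, Unimod.exists_smul_eq_iff]

/-- The orbit relation of `⟨T⟩` on `P¹(ℤ/N)` in coordinates. -/
theorem orbitRel_T_mk_iff (v v' : Unimod N) :
    (MulAction.orbitRel (Subgroup.zpowers ModularGroup.T) (P1 N)) (P1.mk v) (P1.mk v') ↔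
      ∃ (k : ℤ) (w : (ZMod N)ˣ), w • ((ModularGroup.T ^ k : SL(2, ℤ)) • v') = v := by
  rw [MulAction.orbitRel_apply, MulAction.mem_orbit_iff]
  constructor
  · rintro ⟨⟨g, hg⟩, h⟩
    obtain ⟨k, rfl⟩ := Subgroup.mem_zpowers_iff.mp hg
    rw [Subgroup.smul_def, P1.smul_mk, P1.mk_eq_mk_iff_exists] at h
    exact ⟨k, h⟩
  · rintro ⟨k, w, h⟩
    refine ⟨⟨ModularGroup.T ^ k, Subgroup.zpow_mem_zpowers _ k⟩, ?_⟩
    rw [Subgroup.smul_def, P1.smul_mk, P1.mk_eq_mk_iff_exists]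
    exact ⟨w, h⟩

/-- Index set for the cusps of `Γ₀(N)`. -/
abbrev CuspIdx (N : ℕ) : Type :=
  Σ d : {d : ℕ // d ∈ N.divisors}, (ZMod (Nat.gcd d (N / d)))ˣ

theorem gcd_div_dvd_of_dvd {d : ℕ} (hd : d ∣ N) : Nat.gcd d (N / d) ∣ N :=
  (Nat.gcd_dvd_left d (N / d)).trans hd

/-- A chosen lift of a unit mod `gcd(d, N/d)` to a unit mod `N`. -/
noncomputable def unitLift (N : ℕ) [NeZero N] {d : ℕ} (hd : d ∣ N)
    (u : (ZMod (Nat.gcd d (N / d)))ˣ) : (ZMod N)ˣ :=
  (ZMod.unitsMap_surjective (gcd_div_dvd_of_dvd hd) u).choose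

theorem castHom_unitLift [NeZero N] {d : ℕ} (hd : d ∣ N) (u : (ZMod (Nat.gcd d (N / d)))ˣ) :
    ZMod.castHom (gcd_div_dvd_of_dvd hd) (ZMod (Nat.gcd d (N / d))) (unitLift N hd u : ZMod N) =
      (u : ZMod (Nat.gcd d (N / d))) := by
  have h := (ZMod.unitsMap_surjective (gcd_div_dvd_of_dvd hd) u).choose_spec
  have h1 := congrArg (fun x : (ZMod (Nat.gcd d (N / d)))ˣ => (x : ZMod (Nat.gcd d (N / d)))) h
  simp only [ZMod.unitsMap_val] at h1
  rw [ZMod.castHom_apply]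
  exact h1

/-- The standard representative `(ŵ : d)` of a cusp. -/
def cuspRep (N : ℕ) (w : (ZMod N)ˣ) (d : ℕ) : Unimod N :=
  ⟨((w : ZMod N), (d : ZMod N)), ⟨((w⁻¹ : (ZMod N)ˣ) : ZMod N), 0, by simp⟩⟩

@[simp] theorem cuspRep_fst (w : (ZMod N)ˣ) (d : ℕ) : (cuspRep N w d).1.1 = (w : ZMod N) := rfl
@[simp] theorem cuspRep_snd (w : (ZMod N)ˣ) (d : ℕ) : (cuspRep N w d).1.2 = (d : ZMod N) := rfl

/-- The parametrisation of the cusps. -/
noncomputable def cuspMap (N : ℕ) [NeZero N] :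
    CuspIdx N → MulAction.orbitRel.Quotient (Subgroup.zpowers ModularGroup.T) (P1 N) :=
  fun x => Quotient.mk'' (P1.mk (cuspRep N (unitLift N (Nat.dvd_of_mem_divisors x.1.2) x.2) x.1.1))

theorem cuspMap_injective (N : ℕ) [NeZero N] : Function.Injective (cuspMap N) := by
  rintro ⟨⟨d, hd⟩, u⟩ ⟨⟨d', hd'⟩, u'⟩ h
  have hdN := Nat.dvd_of_mem_divisors hd
  have hdN' := Nat.dvd_of_mem_divisors hd'
  unfold cuspMap at h
  rw [Quotient.eq''] at h
  have h' := (orbitRel_T_mk_iff _ _).mp h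
  obtain ⟨k, w, hw⟩ := h'
  have h1 := congrArg (fun v : Unimod N => v.1.1) hw
  have h2 := congrArg (fun v : Unimod N => v.1.2) hw
  simp only [Unimod.smul_fst, Unimod.smul_snd, T_zpow_smul_fst, T_zpow_smul_snd, cuspRep_fst,
    cuspRep_snd] at h1 h2
  have hdd : d = d' := eq_of_natCast_eq_unit_mul hdN' hdN w h2.symm
  subst hdd
  have hw1 : ZMod.castHom (Nat.div_dvd_of_dvd hdN) (ZMod (N / d)) (w : ZMod N) = 1 :=
    castHom_eq_one_of_mul_eq hdN _ h2
  have hg2 : Nat.gcd d (N / d) ∣ N / d := Nat.gcd_dvd_right _ _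
  have hg1 : Nat.gcd d (N / d) ∣ d := Nat.gcd_dvd_left _ _
  have hwg : ZMod.castHom (gcd_div_dvd_of_dvd hdN) (ZMod (Nat.gcd d (N / d))) (w : ZMod N) = 1 := by
    rw [← castHom_castHom hg2 (Nat.div_dvd_of_dvd hdN), hw1, map_one]
  have h3 := congrArg (ZMod.castHom (gcd_div_dvd_of_dvd hdN) (ZMod (Nat.gcd d (N / d)))) h1
  rw [map_mul, map_add, map_mul, map_natCast, (ZMod.natCast_eq_zero_iff _ _).mpr hg1, mul_zero,
    add_zero, hwg, one_mul, castHom_unitLift, castHom_unitLift] at h3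
  have huu : u = u' := Units.ext h3.symm
  subst huu
  rfl

theorem cuspMap_surjective (N : ℕ) [NeZero N] : Function.Surjective (cuspMap N) := by
  intro q
  obtain ⟨p, rfl⟩ := Quotient.mk''_surjective q
  obtain ⟨v, rfl⟩ := P1.mk_surjective p
  obtain ⟨⟨a, c⟩, hac⟩ := v
  obtain ⟨w, hw⟩ := exists_unit_mul_eq_gcd c
  have hdN : Nat.gcd c.val N ∣ N := Nat.gcd_dvd_right _ _
  have hdmem : Nat.gcd c.val N ∈ N.divisors := Nat.mem_divisors.mpr ⟨hdN, NeZero.ne N⟩
  generalize Nat.gcd c.val N = d at hw hdN hdmem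
  have hac' : IsCoprime a c := hac
  have hcop : IsCoprime ((w : ZMod N) * a) ((d : ℕ) : ZMod N) := by
    rw [← hw]
    exact (isCoprime_mul_unit_left w.isUnit _ _).mpr hac'
  have hunit_d : IsUnit (ZMod.castHom hdN (ZMod d) ((w : ZMod N) * a)) := by
    have := hcop.map (ZMod.castHom hdN (ZMod d))
    rw [map_natCast, ZMod.natCast_self, isCoprime_zero_right] at this
    exact this
  have hg1 : Nat.gcd d (N / d) ∣ d := Nat.gcd_dvd_left _ _
  have hunit_g : IsUnit (ZMod.castHom (gcd_div_dvd_of_dvd hdN) (ZMod (Nat.gcd d (N / d)))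
      ((w : ZMod N) * a)) := by
    have := hcop.map (ZMod.castHom (gcd_div_dvd_of_dvd hdN) (ZMod (Nat.gcd d (N / d))))
    rw [map_natCast, (ZMod.natCast_eq_zero_iff _ _).mpr hg1, isCoprime_zero_right] at this
    exact this
  obtain ⟨u, hu⟩ := hunit_g
  refine ⟨⟨⟨d, hdmem⟩, u⟩, ?_⟩
  unfold cuspMap
  rw [Quotient.eq'']
  refine (orbitRel_T_mk_iff _ _).mpr ?_
  have hunit_lift : IsUnit (ZMod.castHom hdN (ZMod d) (unitLift N hdN u : ZMod N)) :=
    (unitLift N hdN u).isUnit.map _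
  obtain ⟨w₂, t, hw₂d, hw₂a⟩ := exists_unit_fix hdN ((w : ZMod N) * a)
    (unitLift N hdN u : ZMod N) hunit_d hunit_lift (by rw [castHom_unitLift, hu])
  refine ⟨-(t.val : ℤ), w₂ * w, ?_⟩
  have htv : (((-(t.val : ℤ) : ℤ)) : ZMod N) = -t := by
    rw [Int.cast_neg, Int.cast_natCast, ZMod.natCast_zmod_val]
  ext
  · simp only [Unimod.smul_fst, T_zpow_smul_fst, cuspRep_fst, htv, Units.val_mul]
    linear_combination hw₂a - t * hw₂d - (w₂ : ZMod N) * t * hw
  · simp only [Unimod.smul_snd, T_zpow_smul_snd, cuspRep_snd, Units.val_mul]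
    linear_combination hw₂d + (w₂ : ZMod N) * hw

theorem card_cuspIdx (N : ℕ) [NeZero N] : Nat.card (CuspIdx N) = ModularCurve.cuspCount N := by
  have : ∀ a : {d : ℕ // d ∈ N.divisors}, NeZero (Nat.gcd a (N / a)) := fun a =>
    ⟨(Nat.gcd_pos_of_pos_left _ (Nat.pos_of_mem_divisors a.2)).ne'⟩
  rw [Nat.card_sigma]
  unfold ModularCurve.cuspCount
  rw [← Finset.sum_coe_sort N.divisors (fun d => Nat.totient (Nat.gcd d (N / d)))]
  refine Finset.sum_congr rfl (fun a _ => ?_)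
  rw [Nat.card_eq_fintype_card, ZMod.card_units_eq_totient]

theorem card_orbits_T_P1 (N : ℕ) [NeZero N] :
    Nat.card (MulAction.orbitRel.Quotient (Subgroup.zpowers ModularGroup.T) (P1 N)) =
      ModularCurve.cuspCount N := by
  rw [← card_cuspIdx N]
  exact (Nat.card_congr
    (Equiv.ofBijective (cuspMap N) ⟨cuspMap_injective N, cuspMap_surjective N⟩)).symm

theorem sub_smul_coset (g : Subgroup.zpowers ModularGroup.T) (b : SL(2, ℤ) ⧸ Gamma0 N) :
    g • b = (g : SL(2, ℤ)) • b := by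
  induction b using QuotientGroup.induction_on with
  | H h => rfl

/-- Transfer of the `T`-orbits from the coset space to `P¹(ℤ/N)`. -/
noncomputable def orbitsEquivP1 (N : ℕ) [NeZero N] :
    MulAction.orbitRel.Quotient (Subgroup.zpowers ModularGroup.T) (SL(2, ℤ) ⧸ Gamma0 N) ≃
      MulAction.orbitRel.Quotient (Subgroup.zpowers ModularGroup.T) (P1 N) :=
  Quotient.congr (cosetEquivP1 N) (by
    intro a b
    rw [MulAction.orbitRel_apply, MulAction.orbitRel_apply, MulAction.mem_orbit_iff,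
      MulAction.mem_orbit_iff]
    constructor
    · rintro ⟨g, rfl⟩
      exact ⟨g, by rw [Subgroup.smul_def, sub_smul_coset, cosetEquivP1_smul]⟩
    · rintro ⟨g, hg⟩
      refine ⟨g, (cosetEquivP1 N).injective ?_⟩
      rw [sub_smul_coset, cosetEquivP1_smul, ← Subgroup.smul_def]
      exact hg)

theorem card_orbits_T_aux (N : ℕ) [NeZero N] :
    Nat.card (MulAction.orbitRel.Quotient (Subgroup.zpowers ModularGroup.T)
      (SL(2, ℤ) ⧸ Gamma0 N)) = ModularCurve.cuspCount N := by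
  rw [Nat.card_congr (orbitsEquivP1 N), card_orbits_T_P1]

end Fermat.Agent.S20
end MergeWrap_S20_Cosets_Cusps

section MergeWrap_S20_Cosets -- from S20/Cosets.lean

set_option autoImplicit false

namespace Fermat.Agent.S20

open scoped MatrixGroups
open CongruenceSubgroup

/-- The coset space `X = SL(2,ℤ)/Γ₀(N)` (left cosets), with `SL(2,ℤ)` acting by left multiplication. -/
abbrev CosetX (N : ℕ) : Type := SL(2, ℤ) ⧸ Gamma0 N

/-- `|SL(2,ℤ)/Γ₀(N)| = ψ(N)`. -/
theorem card_cosetX (N : ℕ) [NeZero N] : Nat.card (CosetX N) = ModularCurve.dedekindPsi N :=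
  card_cosetX_aux N

/-- The number of fixed points of `S` on `SL(2,ℤ)/Γ₀(N)` is `ν₂(N) = #{x mod N : x² + 1 = 0}`. -/
theorem card_fixedBy_S (N : ℕ) [NeZero N] :
    Nat.card (MulAction.fixedBy (CosetX N) ModularGroup.S) = ModularCurve.nuTwo N :=
  card_fixedBy_S_aux N

/-- The number of fixed points of `S * T` on `SL(2,ℤ)/Γ₀(N)` is `ν₃(N) = #{x mod N : x² + x + 1 = 0}`. -/
theorem card_fixedBy_ST (N : ℕ) [NeZero N] :
    Nat.card (MulAction.fixedBy (CosetX N) (ModularGroup.S * ModularGroup.T)) =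
      ModularCurve.nuThree N :=
  card_fixedBy_ST_aux N

/-- The number of orbits of `T` on `SL(2,ℤ)/Γ₀(N)` (= number of cusps of `Γ₀(N)`) is
`∑_{d ∣ N} φ(gcd(d, N/d))`. -/
theorem card_orbits_T (N : ℕ) [NeZero N] :
    Nat.card (MulAction.orbitRel.Quotient (Subgroup.zpowers ModularGroup.T) (CosetX N)) =
      ModularCurve.cuspCount N :=
  card_orbits_T_aux N

end Fermat.Agent.S20
end MergeWrap_S20_Cosets
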