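import Mathlib.NumberTheory.ModularForms.LevelOne.GradedRing
import Fermat.Agent.MUL.Orig.S20.Basics
import Fermat.Agent.MUL.Orig.S20.Ramanujan
import Fermat.Agent.MUL.S20.JInjective

section MergeWrap_S20_LevelOne -- from S20/LevelOne.lean

set_option autoImplicit false
set_option linter.unusedSectionVars false

namespace Fermat.Agent.S20

open UpperHalfPlane hiding I
open ModularForm CongruenceSubgroup Filter Topology Complex
open scoped MatrixGroups ModularForm Manifold Real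

local notation "Δ" => ModularForm.discriminant

/-! ### `E₄`, `E₆`, `Δ` as unbundled level-one forms, limits at `i∞` -/

lemma isMF_E₄ : IsMF 1 4 (⇑E₄) := isMF_one_coe E₄

lemma isMF_E₆ : IsMF 1 6 (⇑E₆) := isMF_one_coe E₆

lemma isCF_discriminant : IsCF 1 12 Δ where
  holo := CuspForm.discriminant.holo'
  slash γ _ := SlashInvariantForm.slash_action_generators_SL2Z discriminant_S_invariant
    discriminant_T_invariant γ
  zero γ := by
    rw [SlashInvariantForm.slash_action_generators_SL2Z discriminant_S_invariant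
      discriminant_T_invariant]
    exact discriminant_isZeroAtImInfty

lemma isMF_discriminant : IsMF 1 12 Δ := isCF_discriminant.isMF

/-- a level one form tends to its constant term at `i∞` -/
lemma tendsto_coeff_zero_levelOne {k : ℤ} (F : ModularForm 𝒮ℒ k) :
    Tendsto (⇑F) atImInfty (𝓝 ((qExpansion 1 F).coeff 0)) := by
  have hΓ : (1 : ℝ) ∈ (𝒮ℒ : Subgroup (GL (Fin 2) ℝ)).strictPeriods := by
    simp
  have han := ModularFormClass.analyticAt_cuspFunction_zero F one_pos hΓ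
  have hper := SlashInvariantFormClass.periodic_comp_ofComplex F hΓ
  have h0 : (qExpansion 1 F).coeff 0 = cuspFunction 1 F 0 := by
    simp [qExpansion_coeff]
  rw [h0]
  have : (cuspFunction 1 F ∘ fun τ : ℍ ↦ Function.Periodic.qParam 1 τ : ℍ → ℂ) = F := by
    funext τ
    simpa using eq_cuspFunction τ one_ne_zero hper
  simpa [this] using han.continuousAt.tendsto.comp (qParam_tendsto_atImInfty one_pos)

lemma tendsto_E₄_atImInfty : Tendsto (⇑E₄) atImInfty (𝓝 1) := by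
  have h := tendsto_coeff_zero_levelOne E₄
  rwa [show (qExpansion 1 E₄).coeff 0 = 1 from
    EisensteinSeries.E_qExpansion_coeff_zero _ ⟨2, rfl⟩] at h

lemma tendsto_E₆_atImInfty : Tendsto (⇑E₆) atImInfty (𝓝 1) := by
  have h := tendsto_coeff_zero_levelOne E₆
  rwa [show (qExpansion 1 E₆).coeff 0 = 1 from
    EisensteinSeries.E_qExpansion_coeff_zero _ ⟨3, rfl⟩] at h

lemma tendsto_discriminant_mul_exp :
    Tendsto (fun z : ℍ => Δ z * Complex.exp (-(2 * π * I) * z)) atImInfty (𝓝 1) := by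
  refine Tendsto.congr (fun z => ?_) tendsto_atImInfty_tprod_one_sub_eta_q_pow
  rw [discriminant_eq_q_prod z]
  have hq : Function.Periodic.qParam 1 (z : ℂ) * Complex.exp (-(2 * π * I) * z) = 1 := by
    rw [Function.Periodic.qParam, ← Complex.exp_add]
    simp
  rw [mul_comm (Function.Periodic.qParam 1 (z : ℂ)), mul_assoc, hq, mul_one]

/-- `E₄` and `E₆` have no common zero. -/
lemma E₄_ne_zero_or_E₆_ne_zero (z : ℍ) : E₄ z ≠ 0 ∨ E₆ z ≠ 0 := by
  by_contra h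
  push Not at h
  have := discriminant_eq_E₄_cube_sub_E₆_sq z
  rw [h.1, h.2] at this
  exact discriminant_ne_zero z (by simpa using this)

/-! ### Vanishing in odd weight, units -/

/-- `-1 ∈ Γ₀(N)`, so forms of odd weight vanish. -/
lemma IsMF.eq_zero_of_odd {N : ℕ} {k : ℤ} {f : ℍ → ℂ} (hf : IsMF N k f) (hk : Odd k) : f = 0 := by
  have hmem : (-1 : SL(2, ℤ)) ∈ Gamma0 N := by
    rw [Gamma0_mem]
    simp
  have h1 := hf.slash (-1) hmem
  funext z
  have h2 := congrFun h1 z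
  rw [ModularForm.SL_slash_apply] at h2
  have hsmul : (-1 : SL(2, ℤ)) • z = z := by
    simp
  have hden : denom ((-1 : SL(2, ℤ)) : GL (Fin 2) ℝ) z = -1 := by
    simp [denom]
  rw [hsmul, hden, hk.neg.neg_one_zpow] at h2
  have h3 : (2 : ℂ) * f z = 0 := by linear_combination -h2
  simpa using h3

/-- A level-one form whose inverse is also a level-one form has weight `0`. -/
lemma weight_eq_zero_of_mul_eq_one {W : ℤ} {f g : ℍ → ℂ} (hf : IsMF 1 W f) (hg : IsMF 1 (-W) g)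
    (h : f * g = 1) : W = 0 := by
  have hne : (1 : ℍ → ℂ) ≠ 0 := by
    intro h0
    have := congrFun h0 UpperHalfPlane.I
    simp at this
  rcases lt_trichotomy W 0 with hW | hW | hW
  · exfalso
    have hf0 := hf.eq_zero_of_neg hW
    rw [hf0, zero_mul] at h
    exact hne h.symm
  · exact hW
  · exfalso
    have hg0 := hg.eq_zero_of_neg (by omega)
    rw [hg0, mul_zero] at h
    exact hne h.symm

/-! ### Monomials `E₄^a E₆^b` -/

/-- powers of level one forms -/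
lemma IsMF.pow_levelOne {k : ℤ} {f : ℍ → ℂ} (hf : IsMF 1 k f) (n : ℕ) :
    IsMF 1 (n * k) (f ^ n) := by
  induction n with
  | zero =>
    have h1 : IsMF 1 0 (fun _ : ℍ => (1 : ℂ)) := IsMF.const 1
    have h2 : (f ^ 0 : ℍ → ℂ) = fun _ => (1 : ℂ) := by
      funext z; simp
    rw [h2]
    exact h1.cast (by simp)
  | succ n ih =>
    rw [pow_succ]
    exact (ih.mul hf).cast (by push_cast; ring)

lemma exists_monomial_aux (a b : ℕ) :
    IsMF 1 (4 * a + 6 * b) ((⇑E₄) ^ a * (⇑E₆) ^ b) ∧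
      Tendsto ((⇑E₄) ^ a * (⇑E₆) ^ b) atImInfty (𝓝 1) ∧
      ∀ z : ℍ, (a ≠ 0 → E₄ z ≠ 0) → (b ≠ 0 → E₆ z ≠ 0) → ((⇑E₄) ^ a * (⇑E₆) ^ b) z ≠ 0 := by
  refine ⟨?_, ?_, ?_⟩
  · exact ((isMF_E₄.pow_levelOne a).mul (isMF_E₆.pow_levelOne b)).cast (by ring)
  · have h4 := tendsto_E₄_atImInfty.pow a
    have h6 := tendsto_E₆_atImInfty.pow b
    have := h4.mul h6
    simp only [one_pow, mul_one] at this
    exact this
  · intro z h4 h6
    simp only [Pi.mul_apply, Pi.pow_apply]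
    refine mul_ne_zero ?_ ?_
    · rcases Nat.eq_zero_or_pos a with ha | ha
      · simp [ha]
      · exact pow_ne_zero _ (h4 (by omega))
    · rcases Nat.eq_zero_or_pos b with hb | hb
      · simp [hb]
      · exact pow_ne_zero _ (h6 (by omega))

/-- For every even weight `m ≥ 0`, `m ≠ 2`, there is a monomial `G = E₄^a E₆^b` of weight `m`;
it tends to `1` at `i∞` and does not vanish where `E₄ E₆ ≠ 0`. -/
lemma exists_monomial {m : ℤ} (hm : 0 ≤ m) (hm2 : m ≠ 2) (heven : Even m) :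
    ∃ G : ℍ → ℂ, IsMF 1 m G ∧ Tendsto G atImInfty (𝓝 1) ∧
      ∀ z : ℍ, E₄ z ≠ 0 → E₆ z ≠ 0 → G z ≠ 0 := by
  obtain ⟨a, b, hab⟩ : ∃ a b : ℕ, (4 : ℤ) * a + 6 * b = m := by
    obtain ⟨n, hn⟩ := heven
    obtain ⟨n', rfl⟩ : ∃ n' : ℕ, n = n' := ⟨n.toNat, by omega⟩
    rcases Nat.even_or_odd' n' with ⟨c, hc | hc⟩
    · exact ⟨c, 0, by subst hc; push_cast at hn ⊢; omega⟩
    · have hc1 : 1 ≤ c := by
        rcases Nat.eq_zero_or_pos c with h0 | h0
        · exfalso; subst h0; subst hc; simp at hn; omega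
        · exact h0
      exact ⟨c - 1, 1, by subst hc; push_cast at hn ⊢; omega⟩
  obtain ⟨h1, h2, h3⟩ := exists_monomial_aux a b
  exact ⟨_, h1.cast hab, h2, fun z h4 h6 => h3 z (fun _ => h4) (fun _ => h6)⟩

/-- powers of `E₄`: weight `m ≡ 0 mod 4`. -/
lemma exists_monomial_four {m : ℤ} (hm : 0 ≤ m) (h4 : (4 : ℤ) ∣ m) :
    ∃ G : ℍ → ℂ, IsMF 1 m G ∧ ∀ z : ℍ, E₄ z ≠ 0 → G z ≠ 0 := by
  obtain ⟨a, hab⟩ : ∃ a : ℕ, (4 : ℤ) * a + 6 * (0 : ℕ) = m := by
    obtain ⟨n, hn⟩ := h4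
    exact ⟨n.toNat, by omega⟩
  obtain ⟨h1, -, h3⟩ := exists_monomial_aux a 0
  exact ⟨_, h1.cast hab, fun z h4 => h3 z (fun _ => h4) (fun h => absurd rfl h)⟩

/-- powers of `E₆`: weight `m ≡ 0 mod 6`. -/
lemma exists_monomial_six {m : ℤ} (hm : 0 ≤ m) (h6 : (6 : ℤ) ∣ m) :
    ∃ G : ℍ → ℂ, IsMF 1 m G ∧ ∀ z : ℍ, E₆ z ≠ 0 → G z ≠ 0 := by
  obtain ⟨b, hab⟩ : ∃ b : ℕ, (4 : ℤ) * (0 : ℕ) + 6 * b = m := by
    obtain ⟨n, hn⟩ := h6
    exact ⟨n.toNat, by omega⟩
  obtain ⟨h1, -, h3⟩ := exists_monomial_aux 0 b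
  exact ⟨_, h1.cast hab, fun z h6 => h3 z (fun h => absurd rfl h) (fun _ => h6)⟩

/-! ### The elliptic points -/

/-- the point `ρ = e^{2πi/3} = -1/2 + (√3/2) i`. -/
noncomputable def ellRho : ℍ := ⟨⟨-1 / 2, Real.sqrt 3 / 2⟩, by positivity⟩

lemma ellRho_coe : (ellRho : ℂ) = ⟨-1 / 2, Real.sqrt 3 / 2⟩ := rfl

lemma ellRho_sq_add : (ellRho : ℂ) ^ 2 + (ellRho : ℂ) + 1 = 0 := by
  have h3 : Real.sqrt 3 * Real.sqrt 3 = 3 := Real.mul_self_sqrt (by norm_num)
  rw [ellRho_coe]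
  apply Complex.ext
  · simp only [pow_two, Complex.add_re, Complex.mul_re, Complex.one_re, Complex.zero_re]
    nlinarith [h3]
  · simp only [pow_two, Complex.add_im, Complex.mul_im, Complex.one_im, Complex.zero_im]
    ring

lemma coe_S_mul_T : ((ModularGroup.S * ModularGroup.T : SL(2, ℤ)) : GL (Fin 2) ℝ) =
    (ModularGroup.S : GL (Fin 2) ℝ) * (ModularGroup.T : GL (Fin 2) ℝ) := by
  simp

lemma denom_ST_ellRho_eq :
    denom (ModularGroup.S * ModularGroup.T) ellRho = (ellRho : ℂ) + 1 := by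
  rw [← coe_S_mul_T, ModularGroup.denom_apply]
  have h10 : ((ModularGroup.S * ModularGroup.T : SL(2, ℤ)) : Matrix (Fin 2) (Fin 2) ℤ) 1 0 = 1 := by
    rw [Matrix.SpecialLinearGroup.coe_mul, ModularGroup.coe_S, ModularGroup.coe_T]
    simp [Matrix.mul_apply, Fin.sum_univ_two]
  have h11 : ((ModularGroup.S * ModularGroup.T : SL(2, ℤ)) : Matrix (Fin 2) (Fin 2) ℤ) 1 1 = 1 := by
    rw [Matrix.SpecialLinearGroup.coe_mul, ModularGroup.coe_S, ModularGroup.coe_T]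
    simp [Matrix.mul_apply, Fin.sum_univ_two]
  rw [h10, h11]
  simp

/-- value of a level-one form at `g • z` -/
lemma IsMF.apply_smul_eq_mul {k : ℤ} {f : ℍ → ℂ} (hf : IsMF 1 k f) (g : SL(2, ℤ)) (z : ℍ) :
    f (g • z) = f z * (denom g z) ^ k := by
  rw [slash_apply_eq f k g z, hf.slash_one]

lemma IsMF.apply_smul_ne_zero {k : ℤ} {f : ℍ → ℂ} (hf : IsMF 1 k f) (g : SL(2, ℤ)) {z : ℍ}
    (hz : f z ≠ 0) : f (g • z) ≠ 0 := by
  rw [hf.apply_smul_eq_mul]
  exact mul_ne_zero hz (zpow_ne_zero _ (denom_ne_zero g z))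

lemma S_smul_I : ModularGroup.S • UpperHalfPlane.I = UpperHalfPlane.I := by
  rw [modular_S_smul]
  apply UpperHalfPlane.ext
  simp [UpperHalfPlane.I]

lemma denom_S_I : denom ModularGroup.S UpperHalfPlane.I = Complex.I := by
  rw [ModularGroup.denom_S]
  rfl

lemma ST_smul_ellRho : (ModularGroup.S * ModularGroup.T) • ellRho = ellRho := by
  rw [mul_smul, modular_T_smul, modular_S_smul]
  apply UpperHalfPlane.ext
  simp only [coe_vadd]
  have h := ellRho_sq_add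
  apply inv_eq_of_mul_eq_one_left
  push_cast
  linear_combination -h

/-- `denom (S*T) ρ = ρ + 1 = e^{πi/3}`; we only record that it is a root of `x² - x + 1`. -/
lemma denom_ST_ellRho :
    (denom (ModularGroup.S * ModularGroup.T) ellRho) ^ 2
      - denom (ModularGroup.S * ModularGroup.T) ellRho + 1 = 0 := by
  rw [denom_ST_ellRho_eq]
  linear_combination ellRho_sq_add

lemma E₆_I : E₆ UpperHalfPlane.I = 0 := by
  have h := isMF_E₆.apply_smul_eq_mul ModularGroup.S UpperHalfPlane.I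
  rw [S_smul_I, denom_S_I] at h
  have hI : (Complex.I : ℂ) ^ (6 : ℤ) = -1 := by
    have : (Complex.I : ℂ) ^ (6 : ℤ) = Complex.I ^ (6 : ℕ) := by norm_cast
    rw [this, show (6 : ℕ) = 2 * 3 from rfl, pow_mul, Complex.I_sq]
    norm_num
  rw [hI] at h
  have h2 : (2 : ℂ) * E₆ UpperHalfPlane.I = 0 := by linear_combination h
  simpa using h2

lemma E₄_I_ne_zero : E₄ UpperHalfPlane.I ≠ 0 := by
  rcases E₄_ne_zero_or_E₆_ne_zero UpperHalfPlane.I with h | h
  · exact h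
  · exact absurd E₆_I h

lemma E₄_ellRho : E₄ ellRho = 0 := by
  have h := isMF_E₄.apply_smul_eq_mul (ModularGroup.S * ModularGroup.T) ellRho
  rw [ST_smul_ellRho, coe_S_mul_T] at h
  set d := denom (ModularGroup.S * ModularGroup.T) ellRho with hd
  have hd2 : d ^ 2 - d + 1 = 0 := denom_ST_ellRho
  have hd4 : d ^ (4 : ℤ) = -d := by
    have : d ^ (4 : ℤ) = d ^ (4 : ℕ) := by norm_cast
    rw [this]
    linear_combination (d ^ 2 + d) * hd2
  rw [hd4] at h
  have hd1 : (1 + d) ≠ 0 := by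
    intro h0
    have : d = -1 := by linear_combination h0
    rw [this] at hd2
    norm_num at hd2
  have h2 : E₄ ellRho * (1 + d) = 0 := by linear_combination h
  rcases mul_eq_zero.mp h2 with h3 | h3
  · exact h3
  · exact absurd h3 hd1

lemma E₆_ellRho_ne_zero : E₆ ellRho ≠ 0 := by
  rcases E₄_ne_zero_or_E₆_ne_zero ellRho with h | h
  · exact absurd E₄_ellRho h
  · exact h

/-! ### Zeros (uses `JInjective`, `Ramanujan`) -/

lemma exists_smul_I_of_E₆_eq_zero {z : ℍ} (hz : E₆ z = 0) :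
    ∃ g : SL(2, ℤ), g • UpperHalfPlane.I = z := by
  apply exists_smul_eq_of_j_eq
  rw [discriminant_eq_E₄_cube_sub_E₆_sq, discriminant_eq_E₄_cube_sub_E₆_sq, hz, E₆_I]
  ring

lemma exists_smul_ellRho_of_E₄_eq_zero {z : ℍ} (hz : E₄ z = 0) :
    ∃ g : SL(2, ℤ), g • ellRho = z := by
  apply exists_smul_eq_of_j_eq
  rw [hz, E₄_ellRho]
  ring

open scoped Derivative in
lemma deriv_comp_ofComplex_eq_D (F : ℍ → ℂ) (z : ℍ) :
    deriv (F ∘ ofComplex) z = (2 * π * Complex.I) * D F z := by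
  have h2pi : (2 * π * Complex.I : ℂ) ≠ 0 := Complex.two_pi_I_ne_zero
  simp only [Derivative.normalizedDerivOfComplex]
  field_simp

lemma deriv_E₄_ne_zero {z : ℍ} (hz : E₄ z = 0) : deriv (⇑E₄ ∘ ofComplex) z ≠ 0 := by
  have h6 : E₆ z ≠ 0 := by
    rcases E₄_ne_zero_or_E₆_ne_zero z with h | h
    · exact absurd hz h
    · exact h
  rw [deriv_comp_ofComplex_eq_D, ramanujan_E₄]
  simp only [Pi.smul_apply, Pi.sub_apply, Pi.mul_apply, hz, mul_zero, zero_sub, smul_eq_mul]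
  exact mul_ne_zero Complex.two_pi_I_ne_zero (mul_ne_zero (by norm_num) (neg_ne_zero.mpr h6))

lemma deriv_E₆_ne_zero {z : ℍ} (hz : E₆ z = 0) : deriv (⇑E₆ ∘ ofComplex) z ≠ 0 := by
  have h4 : E₄ z ≠ 0 := by
    rcases E₄_ne_zero_or_E₆_ne_zero z with h | h
    · exact h
    · exact absurd hz h
  rw [deriv_comp_ofComplex_eq_D, ramanujan_E₆]
  simp only [Pi.smul_apply, Pi.sub_apply, Pi.mul_apply, hz, mul_zero, zero_sub, smul_eq_mul]
  exact mul_ne_zero Complex.two_pi_I_ne_zero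
    (mul_ne_zero (by norm_num) (neg_ne_zero.mpr (mul_ne_zero h4 h4)))

/-- the weight-12 level-one form vanishing exactly (and simply) on the orbit of a generic `z₀`. -/
noncomputable def phiAt (z₀ : ℍ) : ℍ → ℂ := fun z => Δ z₀ * E₄ z ^ 3 - E₄ z₀ ^ 3 * Δ z

lemma isMF_phiAt (z₀ : ℍ) : IsMF 1 12 (phiAt z₀) := by
  have h1 : IsMF 1 12 (⇑E₄ ^ 3) := by
    have := (isMF_E₄.mul isMF_E₄).mul isMF_E₄
    have e : (⇑E₄ * ⇑E₄ * ⇑E₄ : ℍ → ℂ) = ⇑E₄ ^ 3 := by ring
    rw [e] at this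
    exact this.cast (by norm_num)
  have h2 := (h1.smul (Δ z₀)).sub (isMF_discriminant.smul (E₄ z₀ ^ 3))
  refine (by
    convert h2 using 1
    ext z
    simp [phiAt])

lemma phiAt_self (z₀ : ℍ) : phiAt z₀ z₀ = 0 := by
  simp [phiAt, mul_comm]

lemma tendsto_phiAt (z₀ : ℍ) : Tendsto (phiAt z₀) atImInfty (𝓝 (Δ z₀)) := by
  have h4 : Tendsto (⇑E₄) atImInfty (𝓝 1) := tendsto_E₄_atImInfty
  have hΔ : Tendsto Δ atImInfty (𝓝 0) := discriminant_isZeroAtImInfty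
  have := ((h4.pow 3).const_mul (Δ z₀)).sub (hΔ.const_mul (E₄ z₀ ^ 3))
  have e : phiAt z₀ = fun x => Δ z₀ * E₄ x ^ 3 - E₄ z₀ ^ 3 * Δ x := rfl
  rw [e]
  simpa using this

lemma exists_smul_of_phiAt_eq_zero {z₀ z : ℍ} (hz : phiAt z₀ z = 0) :
    ∃ g : SL(2, ℤ), g • z₀ = z := by
  apply exists_smul_eq_of_j_eq
  simp only [phiAt] at hz
  linear_combination -hz

open scoped Derivative in
lemma deriv_phiAt_ne_zero {z₀ z : ℍ} (h4 : E₄ z₀ ≠ 0) (h6 : E₆ z₀ ≠ 0) (hz : phiAt z₀ z = 0) :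
    deriv (phiAt z₀ ∘ ofComplex) z ≠ 0 := by
  obtain ⟨g, rfl⟩ := exists_smul_of_phiAt_eq_zero hz
  have h4z : E₄ (g • z₀) ≠ 0 := isMF_E₄.apply_smul_ne_zero g h4
  have h6z : E₆ (g • z₀) ≠ 0 := isMF_E₆.apply_smul_ne_zero g h6
  have hE4 : MDiff (⇑E₄) := E₄.holo'
  have hΔ' : MDiff Δ := CuspForm.discriminant.holo'
  have hE43 : MDiff (⇑E₄ ^ 3 : ℍ → ℂ) := by
    have := (hE4.mul hE4).mul hE4
    have e : (⇑E₄ * ⇑E₄ * ⇑E₄ : ℍ → ℂ) = ⇑E₄ ^ 3 := by ring
    rwa [e] at this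
  have hphi : phiAt z₀ = (Δ z₀) • (⇑E₄ ^ 3 : ℍ → ℂ) - (E₄ z₀ ^ 3) • (Δ : ℍ → ℂ) := by
    ext w
    simp [phiAt]
  have hD : D (phiAt z₀) = (Δ z₀) • ((3 : ℂ) • ((⇑E₄ ^ 2 : ℍ → ℂ) * D (⇑E₄)))
      - (E₄ z₀ ^ 3) • D Δ := by
    rw [hphi, Derivative.normalizedDerivOfComplex_sub _ _ (hE43.const_smul _) (hΔ'.const_smul _),
      Derivative.normalizedDerivOfComplex_smul _ _ hE43,
      Derivative.normalizedDerivOfComplex_smul _ _ hΔ',
      Derivative.normalizedDerivOfComplex_pow _ 3 hE4]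
    congr 2
    ext w
    simp only [Pi.smul_apply, Pi.mul_apply, Pi.pow_apply, smul_eq_mul, Nat.cast_ofNat]
    norm_num
    ring
  rw [deriv_comp_ofComplex_eq_D, hD, ramanujan_E₄, ramanujan_discriminant]
  simp only [phiAt] at hz
  simp only [Pi.smul_apply, Pi.sub_apply, Pi.mul_apply, Pi.pow_apply, smul_eq_mul]
  have key : Δ z₀ * (3 * (E₄ (g • z₀) ^ 2 *
        (3⁻¹ * (EisensteinSeries.E2 (g • z₀) * E₄ (g • z₀) - E₆ (g • z₀)))))
      - E₄ z₀ ^ 3 * (EisensteinSeries.E2 (g • z₀) * Δ (g • z₀))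
      = - (Δ z₀ * E₄ (g • z₀) ^ 2 * E₆ (g • z₀)) := by
    linear_combination EisensteinSeries.E2 (g • z₀) * hz
  rw [key]
  exact mul_ne_zero Complex.two_pi_I_ne_zero
    (neg_ne_zero.mpr (mul_ne_zero (mul_ne_zero (discriminant_ne_zero z₀) (pow_ne_zero 2 h4z)) h6z))

end Fermat.Agent.S20
end MergeWrap_S20_LevelOne
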